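import Fermat.Agent.Two.Inputs
import Fermat.Agent.Two.Family.Member

/-!
# The family input
-/

set_option autoImplicit false

namespace Fermat.Agent.Two.Data

theorem familyInput : FamilyInput := by
  intro W hΔ hW h2 h3v
  obtain ⟨W', hneg, hss, h2', ha, -, hodd, -, hone, -, -, -, -, hcong⟩ :=
    Family.exists_good_member W hW hΔ h2 h3v (R := 1) one_ne_zero
      (fun p hp hp1 => absurd (Nat.dvd_one.mp hp1) hp.ne_one)
  exact ⟨W', ⟨hss, hneg, h2', ha, hodd, hone⟩, hcong⟩

end Fermat.Agent.Two.Data
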